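/-
Cluster J (S59), J8, leaf NC0 (Tate's formula), sub-piece SOCLE, part 1 (helper85).

Key lemma: if `M` is an `n × n` matrix of power series with `M X = (X_i ^ (N+1))_i` (modulo series
all of whose monomials involve a variable outside `X_1..X_n`), then the coefficient of
`∏ X_i ^ N` in `det M` is `1`.

Proof: induction on `n`, peeling the last variable `X_k`: by Cramer
`det M * X_k = ∑_i adj(M)_{k,i} (M X)_i`; compare the coefficients of `X_k^(N+1) ∏_{i<k} X_i^N`.
-/
import Mathlib.RingTheory.MvPowerSeries.Basic
import Mathlib.LinearAlgebra.Matrix.Determinant.Basic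
import Mathlib.LinearAlgebra.Matrix.Adjugate
import Mathlib.RingTheory.Ideal.Span

set_option autoImplicit false

namespace Fermat.Agent.S59

open MvPowerSeries

variable {σ : Type} {R : Type} [CommRing R]

/-- `h` is negligible with respect to the set `s` of variables: every monomial of `h` involves a
variable outside `s`. -/
def TateNegl (s : Set σ) (h : MvPowerSeries σ R) : Prop :=
  ∀ d : σ →₀ ℕ, (∀ t, t ∉ s → d t = 0) → coeff d h = 0

theorem tateNegl_zero (s : Set σ) : TateNegl s (0 : MvPowerSeries σ R) := fun d _ => by simp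

theorem TateNegl.add {s : Set σ} {g h : MvPowerSeries σ R} (hg : TateNegl s g)
    (hh : TateNegl s h) : TateNegl s (g + h) := fun d hd => by
  rw [map_add, hg d hd, hh d hd, add_zero]

theorem TateNegl.sub {s : Set σ} {g h : MvPowerSeries σ R} (hg : TateNegl s g)
    (hh : TateNegl s h) : TateNegl s (g - h) := fun d hd => by
  rw [map_sub, hg d hd, hh d hd, sub_zero]

theorem TateNegl.mono {s s' : Set σ} (hss : s' ⊆ s) {h : MvPowerSeries σ R}
    (hh : TateNegl s h) : TateNegl s' h := fun d hd =>
  hh d fun t ht => hd t fun ht' => ht (hss ht')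

theorem TateNegl.mul_left {s : Set σ} (g : MvPowerSeries σ R) {h : MvPowerSeries σ R}
    (hh : TateNegl s h) : TateNegl s (g * h) := fun d hd => by
  classical
  rw [coeff_mul]
  refine Finset.sum_eq_zero fun p hp => ?_
  have hp' : p.1 + p.2 = d := Finset.mem_antidiagonal.mp hp
  have h2 : coeff p.2 h = 0 := by
    refine hh p.2 fun t ht => ?_
    have := hd t ht
    rw [← hp', Finsupp.add_apply] at this
    omega
  rw [h2, mul_zero]

theorem tateNegl_mul_X {s : Set σ} (g : MvPowerSeries σ R) {k : σ} (hk : k ∉ s) :
    TateNegl s (g * X k) := fun d hd => by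
  classical
  rw [X_def, coeff_mul_monomial, if_neg]
  intro hle
  have h1 := hle k
  rw [Finsupp.single_eq_same, hd k hk] at h1
  omega

/-- Cramer's rule, one row: `det M * x_k = ∑_i adj(M)_{k,i} (M x)_i`. -/
theorem tate_det_mul_eq {A : Type} [CommRing A] {n : Type} [Fintype n] [DecidableEq n]
    (M : Matrix n n A) (x : n → A) (k : n) :
    M.det * x k = ∑ i, M.adjugate k i * ∑ j, M i j * x j := by
  have h := congrFun (congrArg (fun P : Matrix n n A => P.mulVec x) (Matrix.adjugate_mul M)) k
  simp only [Matrix.smul_mulVec, Matrix.one_mulVec, Pi.smul_apply, smul_eq_mul] at h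
  rw [← h, ← Matrix.mulVec_mulVec]
  rfl

end Fermat.Agent.S59

namespace Fermat.Agent.S59

open MvPowerSeries

variable {σ : Type} {R : Type} [CommRing R]

/-- The monomial `∏_i X_{ι i} ^ N`. -/
noncomputable def tateMono {n : ℕ} (ι : Fin n → σ) (N : ℕ) : σ →₀ ℕ :=
  ∑ i, Finsupp.single (ι i) N

theorem tateMono_apply_of_notMem {n : ℕ} (ι : Fin n → σ) (N : ℕ) {t : σ}
    (ht : t ∉ Set.range ι) : tateMono ι N t = 0 := by
  classical
  rw [tateMono, Finsupp.finsetSum_apply]
  refine Finset.sum_eq_zero fun i _ => ?_
  have hne : ι i ≠ t := by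
    rintro rfl
    exact ht ⟨i, rfl⟩
  rw [Finsupp.single_apply, if_neg hne]

theorem tateMono_apply {n : ℕ} (ι : Fin n → σ) (hι : Function.Injective ι) (N : ℕ) (i : Fin n) :
    tateMono ι N (ι i) = N := by
  classical
  rw [tateMono, Finsupp.finsetSum_apply, Finset.sum_eq_single i]
  · rw [Finsupp.single_eq_same]
  · intro j _ hji
    rw [Finsupp.single_apply, if_neg fun h => hji (hι h)]
  · intro h; exact absurd (Finset.mem_univ i) h

theorem tateMono_succ {n : ℕ} (ι : Fin (n + 1) → σ) (N : ℕ) :
    tateMono ι N = tateMono (fun i : Fin n => ι i.castSucc) N +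
      Finsupp.single (ι (Fin.last n)) N := by
  rw [tateMono, Fin.sum_univ_castSucc]
  rfl

/-- **Key lemma**: the coefficient of `∏ X_i ^ N` in `det M` is `1` if `M X = (X_i ^ (N+1))_i`
modulo negligible series. -/
theorem tate_coeff_det (N : ℕ) : ∀ (n : ℕ) (ι : Fin n → σ), Function.Injective ι →
    ∀ M : Matrix (Fin n) (Fin n) (MvPowerSeries σ R),
    (∀ i, TateNegl (Set.range ι) (∑ j, M i j * X (ι j) - X (ι i) ^ (N + 1))) →
    coeff (tateMono ι N) M.det = 1 := by
  classical
  intro n
  induction n with
  | zero =>
    intro ι _ M _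
    rw [Matrix.det_isEmpty, tateMono, Finset.univ_eq_empty, Finset.sum_empty, coeff_zero_one]
  | succ n ih =>
    intro ι hι M hM
    set k := ι (Fin.last n) with hk
    set ι' : Fin n → σ := fun i => ι i.castSucc with hι'
    have hι'inj : Function.Injective ι' := fun a b hab =>
      Fin.castSucc_injective n (hι hab)
    have hkι' : k ∉ Set.range ι' := by
      rintro ⟨j, hj⟩
      have := hι hj
      exact (Fin.castSucc_lt_last j).ne this
    have hrange : Set.range ι' ⊆ Set.range ι := by
      rintro _ ⟨j, rfl⟩
      exact ⟨j.castSucc, rfl⟩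
    set M' : Matrix (Fin n) (Fin n) (MvPowerSeries σ R) :=
      M.submatrix Fin.castSucc Fin.castSucc with hM'
    -- induction hypothesis for the top-left block
    have hIH : coeff (tateMono ι' N) M'.det = 1 := by
      refine ih ι' hι'inj M' fun i => ?_
      have e : ∑ j, M' i j * X (ι' j) - X (ι' i) ^ (N + 1) =
          (∑ j, M i.castSucc j * X (ι j) - X (ι i.castSucc) ^ (N + 1)) -
            M i.castSucc (Fin.last n) * X k := by
        rw [Fin.sum_univ_castSucc]
        simp only [hM', Matrix.submatrix_apply, hι', hk]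
        ring
      rw [e]
      exact ((hM i.castSucc).mono hrange).sub (tateNegl_mul_X _ hkι')
    -- the adjugate entry
    have hadj : M.adjugate (Fin.last n) (Fin.last n) = M'.det := by
      rw [Matrix.adjugate_fin_succ_eq_det_submatrix, ← two_mul, pow_mul]
      simp only [neg_one_sq, one_pow, one_mul, Fin.succAbove_last]
      rfl
    -- Cramer
    have hcr := tate_det_mul_eq M (fun j => X (ι j)) (Fin.last n)
    have hμ : tateMono ι N = tateMono ι' N + Finsupp.single k N := tateMono_succ ι N
    have h1 : coeff (tateMono ι N) M.det =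
        coeff (tateMono ι N + Finsupp.single k 1) (M.det * X k) := by
      rw [X_def, coeff_add_mul_monomial, mul_one]
    rw [h1, hcr, map_sum, Fin.sum_univ_castSucc]
    have hμ' : tateMono ι N + Finsupp.single k 1 =
        tateMono ι' N + Finsupp.single k (N + 1) := by
      rw [hμ, add_assoc, ← Finsupp.single_add]
    -- the supported-inside property of the monomial
    have hsupp : ∀ t, t ∉ Set.range ι → (tateMono ι N + Finsupp.single k 1 : σ →₀ ℕ) t = 0 := by
      intro t ht
      have hne : k ≠ t := by
        rintro rfl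
        exact ht ⟨Fin.last n, rfl⟩
      rw [Finsupp.add_apply, tateMono_apply_of_notMem ι N ht, Finsupp.single_apply, if_neg hne,
        add_zero]
    -- each summand
    have hterm : ∀ i : Fin (n + 1), coeff (tateMono ι N + Finsupp.single k 1)
        (M.adjugate (Fin.last n) i * ∑ j, M i j * X (ι j)) =
        coeff (tateMono ι N + Finsupp.single k 1)
          (M.adjugate (Fin.last n) i * X (ι i) ^ (N + 1)) := by
      intro i
      have e : M.adjugate (Fin.last n) i * ∑ j, M i j * X (ι j) =
          M.adjugate (Fin.last n) i * X (ι i) ^ (N + 1) +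
            M.adjugate (Fin.last n) i * (∑ j, M i j * X (ι j) - X (ι i) ^ (N + 1)) := by ring
      rw [e, map_add, ((hM i).mul_left _) _ hsupp, add_zero]
    have hlast : coeff (tateMono ι N + Finsupp.single k 1)
        (M.adjugate (Fin.last n) (Fin.last n) * ∑ j, M (Fin.last n) j * X (ι j)) = 1 := by
      rw [hterm, hadj, hμ', X_pow_eq, coeff_add_mul_monomial, mul_one, hIH]
    have hothers : ∀ i : Fin n, coeff (tateMono ι N + Finsupp.single k 1)
        (M.adjugate (Fin.last n) i.castSucc * ∑ j, M i.castSucc j * X (ι j)) = 0 := by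
      intro i
      rw [hterm, X_pow_eq, coeff_mul_monomial, if_neg]
      intro hle
      have h2 := hle (ι i.castSucc)
      have hne : k ≠ ι i.castSucc := fun h => (Fin.castSucc_lt_last i).ne (hι h).symm
      rw [Finsupp.single_eq_same, Finsupp.add_apply, tateMono_apply ι hι, Finsupp.single_apply,
        if_neg hne, add_zero] at h2
      omega
    rw [hlast, Finset.sum_eq_zero fun i _ => hothers i, zero_add]

end Fermat.Agent.S59
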